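/-
T16 / U3b (helper26): the ENDGAME of the case `l = 3`, `p ≡ 2 mod 3`, over `ZMod 3`.

A level-one form mod `3` is a polynomial in `E₄ ≡ 1`, `E₆ ≡ 1`, `Δ ≡ S - S³` (`S = ∑ σ₁(n) qⁿ`), so it is
a polynomial in `S - S³`; by helper32's Artin–Schreier core `false_of_AS` it cannot be equal to
`(a S)(a S + κ)^m` with `a ≠ 0`.
-/
import Fermat.Agent.S16.TraceCases.ArtinSchreier
import Fermat.Agent.S16.TraceCases.E8
import Fermat.Agent.S16.LevelOneIntegral

set_option autoImplicit false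

namespace Fermat.Agent.S16.U3b

open PowerSeries

/-- `S̄ = ∑ σ₁(n) qⁿ` over an arbitrary commutative ring. -/
noncomputable def sBar (K : Type*) [CommRing K] : PowerSeries K :=
  (TraceCases.sigSeries 1).map (Int.castRingHom K)

theorem coeff_zero_sBar (K : Type*) [CommRing K] : PowerSeries.coeff 0 (sBar K) = 0 := by
  simp [sBar]

theorem coeff_one_sBar (K : Type*) [CommRing K] : PowerSeries.coeff 1 (sBar K) = 1 := by
  simp [sBar]

theorem sig3_eq_sigSeries : L1.sig3 = TraceCases.sigSeries 3 := by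
  ext n
  rw [L1.coeff_sig3, TraceCases.coeff_sigSeries]
  split_ifs with h
  · subst h; simp
  · rfl

theorem sig5_eq_sigSeries : L1.sig5 = TraceCases.sigSeries 5 := by
  ext n
  rw [L1.coeff_sig5, TraceCases.coeff_sigSeries]
  split_ifs with h
  · subst h; simp
  · rfl

theorem E4Z_eq_e4 : L1.E4Z = TraceCases.e4 := by
  rw [L1.E4Z_eq, sig3_eq_sigSeries, TraceCases.e4]

theorem E6Z_eq_e6 : L1.E6Z = TraceCases.e6 := by
  rw [L1.E6Z_eq, sig5_eq_sigSeries, TraceCases.e6]

/-- `Δ = S - S³ + 3 W` for the integral `q`-expansion `L1.DeltaZ`. -/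
theorem exists_DeltaZ_eq : ∃ W : PowerSeries ℤ,
    L1.DeltaZ = TraceCases.sigSeries 1 - TraceCases.sigSeries 1 ^ 3 + 3 * W := by
  refine TraceCases.delta_eq_sub_cube_add TraceCases.e4_sq_eq_e8 L1.DeltaZ ?_
  rw [L1.DeltaZ_identity, E4Z_eq_e4, E6Z_eq_e6]

theorem three_eq_zero_zmod : (3 : PowerSeries (ZMod 3)) = 0 := by
  have h : (3 : ZMod 3) = 0 := by decide
  have : (3 : PowerSeries (ZMod 3)) = PowerSeries.C (3 : ZMod 3) := (map_ofNat PowerSeries.C 3).symm
  rw [this, h, map_zero]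

theorem gens_zero : L1.gens (ZMod 3) 0 = 1 := by
  show L1.E4Z.map (Int.castRingHom (ZMod 3)) = 1
  ext n
  rw [PowerSeries.coeff_map, L1.coeff_E4Z, PowerSeries.coeff_one]
  split_ifs with h
  · simp
  · have h240 : ((240 : ℤ) : ZMod 3) = 0 := by decide
    rw [map_mul, eq_intCast, h240, zero_mul]

theorem gens_one : L1.gens (ZMod 3) 1 = 1 := by
  show L1.E6Z.map (Int.castRingHom (ZMod 3)) = 1
  ext n
  rw [PowerSeries.coeff_map, L1.coeff_E6Z, PowerSeries.coeff_one]
  split_ifs with h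
  · simp
  · have h504 : ((-504 : ℤ) : ZMod 3) = 0 := by decide
    rw [map_mul, eq_intCast, h504, zero_mul]

theorem gens_two : L1.gens (ZMod 3) 2 = sBar (ZMod 3) - sBar (ZMod 3) ^ 3 := by
  show L1.DeltaZ.map (Int.castRingHom (ZMod 3)) = _
  obtain ⟨W, hW⟩ := exists_DeltaZ_eq
  rw [hW, sBar]
  simp only [map_add, map_sub, map_mul, map_pow]
  have : PowerSeries.map (Int.castRingHom (ZMod 3)) (3 : PowerSeries ℤ) = 3 := map_ofNat _ 3
  rw [this, three_eq_zero_zmod, zero_mul, add_zero]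

/-- a polynomial in `E₄, E₆, Δ` mod `3` is a polynomial in `S̄ - S̄³` -/
theorem exists_polynomial_of_mvPolynomial (P : MvPolynomial (Fin 3) (ZMod 3)) :
    ∃ Pol : Polynomial (ZMod 3),
      Polynomial.aeval (sBar (ZMod 3) - sBar (ZMod 3) ^ 3) Pol =
        MvPolynomial.aeval (L1.gens (ZMod 3)) P := by
  refine ⟨MvPolynomial.aeval (![1, 1, Polynomial.X] : Fin 3 → Polynomial (ZMod 3)) P, ?_⟩
  induction P using MvPolynomial.induction_on with
  | C a => simp
  | add f g hf hg => rw [map_add, map_add, map_add, hf, hg]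
  | mul_X f i hf =>
    rw [map_mul, map_mul, map_mul, hf, MvPolynomial.aeval_X, MvPolynomial.aeval_X]
    congr 1
    fin_cases i
    · simp [gens_zero]
    · simp [gens_one]
    · simp [gens_two]

/-- **Endgame of U3b**: `(a S̄)(a S̄ + κ)^m` (`a ≠ 0`) is not the reduction mod `3` of a level-one
form (polynomial in `E₄, E₆, Δ`). -/
theorem false_of_levelOne_mod_three (a κ : ZMod 3) (ha : a ≠ 0) (m : ℕ)
    (P : MvPolynomial (Fin 3) (ZMod 3))
    (h : MvPolynomial.aeval (L1.gens (ZMod 3)) P =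
      (PowerSeries.C a * sBar (ZMod 3)) *
        (PowerSeries.C a * sBar (ZMod 3) + PowerSeries.C κ) ^ m) : False := by
  obtain ⟨Pol, hPol⟩ := exists_polynomial_of_mvPolynomial P
  have : Fact (Nat.Prime 3) := ⟨by norm_num⟩
  exact TraceCases.false_of_AS (k := ZMod 3) (by decide) (sBar (ZMod 3)) (coeff_zero_sBar _)
    (coeff_one_sBar _) a κ ha m Pol (hPol.trans h)

end Fermat.Agent.S16.U3b
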