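/-
T16 / U3b (helper26): the FORMAL POWER SERIES side of the case `l = 3`, `p ≡ 2 mod 3`.

For `g = c + 9 w ∈ ℤ⟦q⟧` (the `q`-expansion of `G ∈ M₂(Γ₀(p))` at `∞`) the weight `6` form
`Φ = (G³ - c³ E₆)/9` has

* at `∞` the integral expansion `aInt c w` with `9 * aInt c w = g³ - c³ e₆`, and
  `aInt c w ≡ -c³ S̄` modulo `3` (`S̄ = ∑ σ₁(n) qⁿ`);
* at the cusp `0` (in `t = q^(1/p)`), over any ring `A` containing an inverse `pinv` of `p`, the
  expansion `bPhi p hp pinv c m w` (`1 + p³ = 9 m`) with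
  `9 * bPhi = (bG p pinv g)³ - c³ e₆(t^p)`, `bG p pinv g = -(1/p) U_p g`, and
  `bPhi ≡ κ - c³ S̄(t^p)` modulo `3`.

Everything is functorial in `A` (`map_bPhi`).  Mathlib + helper32's `TraceCases/Basic`.
-/
import Fermat.Agent.S16.U3b.AS

set_option autoImplicit false

namespace Fermat.Agent.S16.U3b

open PowerSeries

open Fermat.Agent.S16.TraceCases (Uop sigSeries e6 coeff_Uop coeff_sigSeries)

section General

variable {A A' : Type*} [CommRing A] [CommRing A']

/-- an integer power series viewed over `A` -/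
noncomputable abbrev mapZ (A : Type*) [CommRing A] (P : PowerSeries ℤ) : PowerSeries A :=
  P.map (Int.castRingHom A)

theorem map_mapZ (ψ : A →+* A') (P : PowerSeries ℤ) :
    PowerSeries.map ψ (mapZ A P) = mapZ A' P := by
  ext n
  simp [PowerSeries.coeff_map]

theorem map_Uop (ψ : A →+* A') (p : ℕ) (f : PowerSeries A) :
    PowerSeries.map ψ (Uop p f) = Uop p (PowerSeries.map ψ f) := by
  ext n
  simp [PowerSeries.coeff_map]

theorem Uop_ofNat_mul (p : ℕ) (n : ℕ) [n.AtLeastTwo] (f : PowerSeries A) :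
    Uop p ((OfNat.ofNat n : PowerSeries A) * f) = (OfNat.ofNat n : PowerSeries A) * Uop p f := by
  have h : (OfNat.ofNat n : PowerSeries A) = PowerSeries.C (OfNat.ofNat n : A) :=
    (map_ofNat PowerSeries.C n).symm
  rw [h, TraceCases.Uop_C_mul]

/-- the `i`-th component (`i < p`) of a series in `t = q^(1/p)`: `∑_l B_{i + l p} q^l` -/
noncomputable def compOf (p i : ℕ) (B : PowerSeries A) : PowerSeries A :=
  PowerSeries.mk fun l => PowerSeries.coeff (i + l * p) B

@[simp] theorem coeff_compOf (p i : ℕ) (B : PowerSeries A) (l : ℕ) :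
    PowerSeries.coeff l (compOf p i B) = PowerSeries.coeff (i + l * p) B := by
  simp [compOf]

theorem map_compOf (ψ : A →+* A') (p i : ℕ) (B : PowerSeries A) :
    PowerSeries.map ψ (compOf p i B) = compOf p i (PowerSeries.map ψ B) := by
  ext l
  simp [PowerSeries.coeff_map]

theorem compOf_pos (p : ℕ) (hp : p ≠ 0) (κ a : A) (S : PowerSeries A) {i : ℕ} (hi0 : 0 < i)
    (hip : i < p) :
    compOf p i (PowerSeries.C κ + PowerSeries.C a * PowerSeries.expand p hp S) = 0 := by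
  ext l
  have hnd : ¬ p ∣ i + l * p := by
    intro h
    have h2 : p ∣ i := (Nat.dvd_add_left (Dvd.intro_left l rfl)).mp h
    exact absurd (Nat.le_of_dvd hi0 h2) (by omega)
  have hne : i + l * p ≠ 0 := by omega
  rw [coeff_compOf, map_add, PowerSeries.coeff_C, if_neg hne, PowerSeries.coeff_C_mul,
    PowerSeries.coeff_expand_of_not_dvd p hp S hnd, mul_zero, add_zero, map_zero]

theorem compOf_zero (p : ℕ) (hp : p ≠ 0) (κ a : A) (S : PowerSeries A) :
    compOf p 0 (PowerSeries.C κ + PowerSeries.C a * PowerSeries.expand p hp S) =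
      PowerSeries.C κ + PowerSeries.C a * S := by
  ext l
  rw [coeff_compOf, zero_add, map_add, map_add, PowerSeries.coeff_C, PowerSeries.coeff_C,
    PowerSeries.coeff_C_mul, PowerSeries.coeff_C_mul, mul_comm l p,
    PowerSeries.coeff_expand_mul]
  have : p * l = 0 ↔ l = 0 := by
    constructor
    · intro h
      rcases Nat.mul_eq_zero.mp h with h | h
      · exact absurd h hp
      · exact h
    · rintro rfl; simp
  by_cases hl : l = 0
  · rw [if_pos hl, if_pos (this.mpr hl)]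
  · rw [if_neg hl, if_neg (fun h => hl (this.mp h))]

end General

/-! ### `σ₅ ≡ σ₁ mod 3` -/

theorem three_dvd_pow_five_sub (d : ℤ) : (3 : ℤ) ∣ d ^ 5 - d := by
  have h : ∀ x : ZMod 3, x ^ 5 - x = 0 := by decide
  have := h (d : ZMod 3)
  have h2 : ((d ^ 5 - d : ℤ) : ZMod 3) = 0 := by
    push_cast
    exact this
  exact (ZMod.intCast_zmod_eq_zero_iff_dvd _ 3).mp h2

/-- `S₅ = S₁ + 3 Z`. -/
theorem exists_Z5 : ∃ Z : PowerSeries ℤ, sigSeries 5 = sigSeries 1 + 3 * Z := by
  have hdiv : ∀ n : ℕ, (3 : ℤ) ∣ ((ArithmeticFunction.sigma 5 n : ℕ) : ℤ) -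
      ((ArithmeticFunction.sigma 1 n : ℕ) : ℤ) := by
    intro n
    rw [TraceCases.sigma_cast, TraceCases.sigma_cast, ← Finset.sum_sub_distrib]
    refine Finset.dvd_sum fun d _ => ?_
    have := three_dvd_pow_five_sub (d : ℤ)
    simpa using this
  refine ⟨PowerSeries.mk fun n => (((ArithmeticFunction.sigma 5 n : ℕ) : ℤ) -
      ((ArithmeticFunction.sigma 1 n : ℕ) : ℤ)) / 3, ?_⟩
  ext n
  have e3 : (3 : PowerSeries ℤ) = PowerSeries.C (3 : ℤ) := (map_ofNat PowerSeries.C 3).symm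
  rw [e3]
  simp only [map_add, PowerSeries.coeff_C_mul, coeff_sigSeries, PowerSeries.coeff_mk]
  rw [Int.mul_ediv_cancel' (hdiv n)]
  ring

theorem mapZ_sig5_char_three (K : Type*) [CommRing K] (h3 : (3 : K) = 0) :
    mapZ K (sigSeries 5) = sBar K := by
  obtain ⟨Z, hZ⟩ := exists_Z5
  have h3' : (3 : PowerSeries K) = 0 := by
    rw [← map_ofNat (PowerSeries.C (R := K)) 3, h3, map_zero]
  rw [mapZ, hZ, map_add, map_mul, map_ofNat, h3', zero_mul, add_zero, sBar]

/-! ### The expansion at `∞` -/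

/-- the integral `q`-expansion of `Φ = (G³ - c³ E₆)/9` at `∞`, for `G = c + 9 w` -/
noncomputable def aInt (c : ℤ) (w : PowerSeries ℤ) : PowerSeries ℤ :=
  3 * PowerSeries.C (c ^ 2) * w + 27 * PowerSeries.C c * w ^ 2 + 81 * w ^ 3 +
    56 * PowerSeries.C (c ^ 3) * sigSeries 5

theorem nine_mul_aInt (c : ℤ) (w : PowerSeries ℤ) :
    9 * aInt c w = (PowerSeries.C c + 9 * w) ^ 3 - PowerSeries.C (c ^ 3) * e6 := by
  have e504 : (PowerSeries.C (504 : ℤ) : PowerSeries ℤ) = 504 := map_ofNat _ 504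
  rw [aInt, e6, e504, map_pow, map_pow]
  ring

theorem mapZ_aInt_char_three (K : Type*) [CommRing K] (h3 : (3 : K) = 0) (c : ℤ)
    (w : PowerSeries ℤ) :
    mapZ K (aInt c w) = PowerSeries.C (-(c : K) ^ 3) * sBar K := by
  have h3' : (3 : PowerSeries K) = 0 := by
    rw [← map_ofNat (PowerSeries.C (R := K)) 3, h3, map_zero]
  have h27 : (27 : PowerSeries K) = 3 * 9 := by norm_num
  have h81 : (81 : PowerSeries K) = 3 * 27 := by norm_num
  have h56 : (56 : PowerSeries K) = 3 * 19 + -1 := by norm_num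
  have hs := mapZ_sig5_char_three K h3
  rw [mapZ] at hs
  rw [mapZ, aInt]
  simp only [map_add, map_mul, map_pow, map_ofNat, hs, PowerSeries.map_C, map_neg]
  simp only [eq_intCast]
  rw [h27, h81, h56, h3']
  ring

/-! ### The expansion at the cusp `0` -/

section Zero

variable {A A' : Type*} [CommRing A] [CommRing A']

/-- the `q^(1/p)`-expansion of `G ∣[2] S`: `-(1/p) U_p g` -/
noncomputable def bG (p : ℕ) (pinv : A) (g : PowerSeries ℤ) : PowerSeries A :=
  -(PowerSeries.C pinv * Uop p (mapZ A g))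

theorem coeff_bG (p : ℕ) (pinv : A) (g : PowerSeries ℤ) (n : ℕ) :
    PowerSeries.coeff n (bG p pinv g) = -(pinv * ((PowerSeries.coeff (p * n) g : ℤ) : A)) := by
  simp [bG, PowerSeries.coeff_map]

/-- the `q^(1/p)`-expansion of `Φ ∣[6] S`, `Φ = (G³ - c³ E₆)/9`, `G = c + 9 w`, `1 + p³ = 9 m` -/
noncomputable def bPhi (p : ℕ) (hp : p ≠ 0) (pinv : A) (c m : ℤ) (w : PowerSeries ℤ) :
    PowerSeries A :=
  PowerSeries.C (-((c : A) ^ 3 * (m : A) * pinv ^ 3)) +
    3 * PowerSeries.C (-((c : A) * pinv)) ^ 2 * (-(PowerSeries.C pinv * Uop p (mapZ A w))) +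
    27 * PowerSeries.C (-((c : A) * pinv)) * (-(PowerSeries.C pinv * Uop p (mapZ A w))) ^ 2 +
    81 * (-(PowerSeries.C pinv * Uop p (mapZ A w))) ^ 3 +
    56 * PowerSeries.C ((c : A) ^ 3) * PowerSeries.expand p hp (mapZ A (sigSeries 5))

theorem map_bPhi (ψ : A →+* A') (p : ℕ) (hp : p ≠ 0) (pinv : A) (c m : ℤ) (w : PowerSeries ℤ) :
    PowerSeries.map ψ (bPhi p hp pinv c m w) = bPhi p hp (ψ pinv) c m w := by
  simp only [bPhi, map_add, map_mul, map_pow, map_neg, map_ofNat, PowerSeries.map_C,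
    PowerSeries.map_expand, map_Uop, map_mapZ, map_intCast]

theorem bG_eq (p : ℕ) (hp : p ≠ 0) (pinv : A) (c : ℤ) (w : PowerSeries ℤ) :
    bG p pinv (PowerSeries.C c + 9 * w) =
      PowerSeries.C (-((c : A) * pinv)) + 9 * (-(PowerSeries.C pinv * Uop p (mapZ A w))) := by
  rw [bG, mapZ, map_add, map_mul, map_ofNat, PowerSeries.map_C, TraceCases.Uop_add,
    TraceCases.Uop_C p hp, Uop_ofNat_mul, eq_intCast, map_neg, map_mul]
  ring

theorem nine_mul_bPhi (p : ℕ) (hp : p ≠ 0) (pinv : A) (hpinv : pinv * (p : A) = 1) (c m : ℤ)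
    (hm : 1 + (p : ℤ) ^ 3 = 9 * m) (w : PowerSeries ℤ) :
    9 * bPhi p hp pinv c m w =
      bG p pinv (PowerSeries.C c + 9 * w) ^ 3 -
        PowerSeries.C ((c : A) ^ 3) * PowerSeries.expand p hp (mapZ A e6) := by
  have hm' : (1 : A) + (p : A) ^ 3 = 9 * (m : A) := by
    have := congrArg (Int.cast : ℤ → A) hm
    push_cast at this
    exact this
  have hκ0 : (9 : A) * (-((c : A) ^ 3 * (m : A) * pinv ^ 3)) =
      (-((c : A) * pinv)) ^ 3 - (c : A) ^ 3 := by
    linear_combination ((c : A) ^ 3 * pinv ^ 3) * hm' +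
      (-(c : A) ^ 3 * (1 + pinv * p + pinv ^ 2 * p ^ 2)) * hpinv
  have hκ : (9 : PowerSeries A) * PowerSeries.C (-((c : A) ^ 3 * (m : A) * pinv ^ 3)) =
      PowerSeries.C (-((c : A) * pinv)) ^ 3 - PowerSeries.C ((c : A) ^ 3) := by
    rw [← map_pow, ← map_sub, ← hκ0, map_mul, map_ofNat]
  have he6 : PowerSeries.expand p hp (mapZ A e6) =
      1 - 504 * PowerSeries.expand p hp (mapZ A (sigSeries 5)) := by
    have e504 : (PowerSeries.C (504 : ℤ) : PowerSeries ℤ) = 504 := map_ofNat _ 504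
    rw [mapZ, e6, e504, map_sub, map_mul, map_one, map_ofNat, map_sub, map_mul, map_one,
      map_ofNat]
  rw [bG_eq p hp, bPhi, he6]
  linear_combination hκ

theorem bPhi_char_three (K : Type*) [CommRing K] (h3 : (3 : K) = 0) (p : ℕ) (hp : p ≠ 0)
    (pinv : K) (c m : ℤ) (w : PowerSeries ℤ) :
    bPhi p hp pinv c m w = PowerSeries.C (-((c : K) ^ 3 * (m : K) * pinv ^ 3)) +
      PowerSeries.C (-(c : K) ^ 3) * PowerSeries.expand p hp (sBar K) := by
  have h3' : (3 : PowerSeries K) = 0 := by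
    rw [← map_ofNat (PowerSeries.C (R := K)) 3, h3, map_zero]
  have h27 : (27 : PowerSeries K) = 3 * 9 := by norm_num
  have h81 : (81 : PowerSeries K) = 3 * 27 := by norm_num
  have h56 : (56 : PowerSeries K) = 3 * 19 + -1 := by norm_num
  rw [bPhi, mapZ_sig5_char_three K h3, h27, h81, h56, h3']
  simp only [map_neg]
  ring

end Zero

end Fermat.Agent.S16.U3b
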