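/-
T16 / U3b GLUE (helper26): `NoConstInt p 3 2` for `p ≡ 2 mod 3`.

`G ∈ M₂(Γ₀(p))` with `q`-expansion `c + 9 (…)`, `3 ∤ c`.  Put `Φ = (G³ - c³ E₆)/9 ∈ M₆(Γ₀(p))`.
* at `∞`: `Φ = aInt c w ≡ -c³ S̄ mod 3`  (`Series.lean`);
* at `0` (in `t = q^(1/p)`): `Φ ∣ S = bPhi ≡ κ - c³ S̄(t^p) mod 3`, because `G ∣ S = -(1/p) U_p G`
  (helper71, `Conj/Expand.lean`) and `p³ ≡ -1 mod 9`;
* the norm `N = normForm Φ (p+1)` (helper23) is a level-one form of weight `6 (p+1)` whose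
  `q`-expansion is `qcEsymmModel p a b (p+1)` (helper20), `3`-integral, and
  `N ≡ (-c³ S̄) (κ - c³ S̄)^p mod 3`;
* level-one forms mod `3` are polynomials in `Δ̄ = S̄ - S̄³` (helper30 `Rl.exists_mvPolynomial_mod`,
  `AS.lean`), contradicting helper32's Artin–Schreier core `false_of_AS`.
-/
import Fermat.Agent.S16.U3b.Series
import Fermat.Agent.S16.NoConst
import Fermat.Agent.S16.LocalRing
import Fermat.Agent.S16.Conj.NormQExp
import Fermat.Agent.S16.Conj.Expand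

set_option autoImplicit false

open UpperHalfPlane ModularForm ModularFormClass EisensteinSeries CongruenceSubgroup
open scoped MatrixGroups ModularForm Manifold

namespace Fermat.Agent.S16.U3b

open Fermat.Agent.S23 (IsMF G0)
open Fermat.Agent.S16.Conj
open Fermat.Agent.S16.Conj.Expand (IsG0 HasQExp aSer bSer)
open Fermat.Agent.S20.Puiseux (comp coeff_comp)

/-- the weight `6` form `Φ = (G³ - c³ E₆)/9`, as a function -/
noncomputable def phiFun (G : ℍ → ℂ) (c : ℤ) : ℍ → ℂ :=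
  (9 : ℂ)⁻¹ • (G ^ 3 - ((c : ℂ) ^ 3) • (E₆ : ℍ → ℂ))

theorem exists_w {p : ℕ} (G : ModularForm (Gamma0 p) 2) (c₀ : ℤ)
    (h0 : (qExpansion 1 G).coeff 0 = (c₀ : ℂ))
    (hk : ∀ k : ℕ, 1 ≤ k → ∃ c : ℤ, (qExpansion 1 G).coeff k = ((3 : ℕ) : ℂ) ^ 2 * (c : ℂ)) :
    ∃ w : PowerSeries ℤ, qExpansion 1 G = mapZ ℂ (PowerSeries.C c₀ + 9 * w) := by
  classical
  choose c hc using hk
  refine ⟨PowerSeries.mk fun n => if h : 1 ≤ n then c n h else 0, ?_⟩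
  ext n
  have e9 : (9 : PowerSeries ℤ) = PowerSeries.C (9 : ℤ) := (map_ofNat PowerSeries.C 9).symm
  rw [mapZ, PowerSeries.coeff_map, map_add, e9, PowerSeries.coeff_C_mul, PowerSeries.coeff_C,
    PowerSeries.coeff_mk]
  by_cases h : 1 ≤ n
  · rw [dif_pos h, if_neg (by omega), hc n h]
    simp only [eq_intCast]
    push_cast
    ring
  · have hn : n = 0 := by omega
    subst hn
    rw [dif_neg h, if_pos rfl, h0]
    simp

variable {p : ℕ} [Fact p.Prime]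

theorem isMF_phiFun (G : ModularForm (Gamma0 p) 2) (c : ℤ) :
    IsMF (G0 p) 6 (phiFun G c) := by
  have h1 : IsMF (G0 p) 6 ((G : ℍ → ℂ) ^ 3) :=
    ((Fermat.Agent.S23.ModularForm.isMF G).pow 3).congr_weight (by norm_num)
  have h2 : IsMF (G0 p) 6 (E₆ : ℍ → ℂ) :=
    (Fermat.Agent.S23.ModularForm.isMF E₆).mono (Fermat.Agent.S23.G0_le_SL p)
  exact (h1.sub (h2.smul _)).smul _

theorem isG0_E6 (N : ℕ) [NeZero N] : IsG0 N 6 (E₆ : ℍ → ℂ) :=
  IsG0.of_isMF ((Fermat.Agent.S23.ModularForm.isMF E₆).mono (Fermat.Agent.S23.G0_le_SL N))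

theorem E6_slash_S : (E₆ : ℍ → ℂ) ∣[(6 : ℤ)] ModularGroup.S = (E₆ : ℍ → ℂ) := by
  refine (isG0_E6 1).inv ModularGroup.S ?_
  rw [Gamma0_mem]
  exact Subsingleton.elim _ _

theorem aSer_E6 : aSer (E₆ : ℍ → ℂ) = mapZ ℂ TraceCases.e6 := by
  rw [aSer, L1.qExpansion_E6, E6Z_eq_e6]

theorem hasQExp_phiFun_inf (G : ModularForm (Gamma0 p) 2) (c : ℤ) :
    HasQExp 1 (phiFun G c)
      ((9 : ℂ)⁻¹ • ((aSer G) ^ 3 - ((c : ℂ) ^ 3) • aSer (E₆ : ℍ → ℂ))) :=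
  (((IsG0.of_modularForm G).hasQExp.pow one_pos 3).sub one_pos
    ((isG0_E6 p).hasQExp.smul _)).smul _

theorem cuspZero_phiFun (G : ℍ → ℂ) (c : ℤ) :
    qcCuspZero 6 (phiFun G c) =
      (9 : ℂ)⁻¹ • ((G ∣[(2 : ℤ)] ModularGroup.S) ^ 3 - ((c : ℂ) ^ 3) • (E₆ : ℍ → ℂ)) := by
  funext τ
  have hE := congrFun E6_slash_S τ
  rw [Expand.slash_S_apply] at hE
  rw [qcCuspZero, Expand.slash_S_apply]
  simp only [phiFun, Pi.smul_apply, Pi.sub_apply, Pi.pow_apply, smul_eq_mul]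
  rw [Expand.slash_S_apply, ← hE]
  have hz : ((τ : ℂ) ^ (-(2 : ℤ))) ^ 3 = (τ : ℂ) ^ (-(6 : ℤ)) := by
    rw [← zpow_natCast, ← zpow_mul]
    norm_num
  rw [mul_pow, hz]
  ring

theorem hasQExp_phiFun_zero (G : ModularForm (Gamma0 p) 2) (c : ℤ) :
    HasQExp p (qcCuspZero 6 (phiFun G c))
      ((9 : ℂ)⁻¹ • ((bSer p 2 G) ^ 3 - ((c : ℂ) ^ 3) •
        PowerSeries.expand p (Fact.out : p.Prime).ne_zero (aSer (E₆ : ℍ → ℂ)))) := by
  rw [cuspZero_phiFun]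
  have hp0 : (0 : ℝ) < p := Expand.natCast_pos' p
  exact (((IsG0.of_modularForm G).hasQExp_slash_S.pow hp0 3).sub hp0
    (((isG0_E6 p).hasQExp.expand_one p (Fact.out : p.Prime).ne_zero).smul _)).smul _

theorem nine_smul_eq (x : PowerSeries ℂ) : (9 : ℂ) • x = 9 * x := by
  rw [PowerSeries.smul_eq_C_mul, map_ofNat]

theorem qExpansion_phiFun (G : ModularForm (Gamma0 p) 2) (c : ℤ) (w : PowerSeries ℤ)
    (hg : qExpansion 1 G = mapZ ℂ (PowerSeries.C c + 9 * w)) :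
    qExpansion 1 (phiFun G c) = mapZ ℂ (aInt c w) := by
  rw [(hasQExp_phiFun_inf G c).qExpansion_eq one_pos, aSer_E6]
  have h9 := congrArg (mapZ ℂ) (nine_mul_aInt c w)
  have hG : aSer G = mapZ ℂ (PowerSeries.C c + 9 * w) := hg
  rw [hG, inv_smul_eq_iff₀ (by norm_num : (9 : ℂ) ≠ 0), nine_smul_eq, PowerSeries.smul_eq_C_mul]
  simp only [mapZ, map_mul, map_sub, map_pow, map_ofNat, PowerSeries.map_C, map_add] at h9 ⊢
  simp only [eq_intCast] at h9 ⊢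
  rw [h9]

theorem bSer_eq (G : ModularForm (Gamma0 p) 2) (c : ℤ) (w : PowerSeries ℤ)
    (hg : qExpansion 1 G = mapZ ℂ (PowerSeries.C c + 9 * w)) :
    bSer p 2 G = bG p ((p : ℂ)⁻¹) (PowerSeries.C c + 9 * w) := by
  ext n
  have hG : aSer G = mapZ ℂ (PowerSeries.C c + 9 * w) := hg
  rw [(IsG0.of_modularForm G).coeff_bSer, coeff_bG, hG, mapZ, PowerSeries.coeff_map, eq_intCast]
  ring

theorem qExpansion_cuspZero_phiFun (G : ModularForm (Gamma0 p) 2) (c m : ℤ)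
    (hm : 1 + (p : ℤ) ^ 3 = 9 * m) (w : PowerSeries ℤ)
    (hg : qExpansion 1 G = mapZ ℂ (PowerSeries.C c + 9 * w)) :
    qExpansion p (qcCuspZero 6 (phiFun G c)) =
      bPhi p (Fact.out : p.Prime).ne_zero ((p : ℂ)⁻¹) c m w := by
  have hp0 : (0 : ℝ) < p := Expand.natCast_pos' p
  have hpne : (p : ℂ) ≠ 0 := Nat.cast_ne_zero.mpr (Fact.out : p.Prime).ne_zero
  rw [(hasQExp_phiFun_zero G c).qExpansion_eq hp0, aSer_E6, bSer_eq G c w hg,
    inv_smul_eq_iff₀ (by norm_num : (9 : ℂ) ≠ 0), nine_smul_eq, PowerSeries.smul_eq_C_mul,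
    nine_mul_bPhi p _ ((p : ℂ)⁻¹) (inv_mul_cancel₀ hpne) c m hm w]

theorem esymm_cons_replicate_succ {R : Type*} [CommSemiring R] (n : ℕ) (x y : R) :
    (x ::ₘ Multiset.replicate n y).esymm (n + 1) = x * y ^ n := by
  have hcard : Multiset.card (x ::ₘ Multiset.replicate n y) = n + 1 := by simp
  rw [Multiset.esymm, ← hcard, Multiset.powersetCard_self]
  simp

/-- **U3b**: `ℓ = 3`, `p ≡ 2 mod 3`. -/
theorem noConstInt_three_two (p : ℕ) [Fact p.Prime] (_hp5 : 5 ≤ p) (h : p % 3 = 2) :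
    NoConstInt p 3 2 := by
  rintro ⟨G, ⟨c₀, hc₀, h0⟩, hk⟩
  have hpP : p.Prime := Fact.out
  have hp0 : p ≠ 0 := hpP.ne_zero
  have hpne : (p : ℂ) ≠ 0 := Nat.cast_ne_zero.mpr hp0
  obtain ⟨w, hw⟩ := exists_w G c₀ h0 hk
  -- `9 ∣ 1 + p³`
  obtain ⟨m, hm⟩ : ∃ m : ℤ, 1 + (p : ℤ) ^ 3 = 9 * m := by
    obtain ⟨k, hk⟩ : ∃ k, p = 3 * k + 2 := ⟨p / 3, by omega⟩
    refine ⟨3 * (k : ℤ) ^ 3 + 6 * (k : ℤ) ^ 2 + 4 * (k : ℤ) + 1, ?_⟩
    rw [hk]
    push_cast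
    ring
  have hp3 : ¬ ((3 : ℕ) : ℤ) ∣ (p : ℤ) := by
    rw [Int.natCast_dvd_natCast]
    omega
  -- the weight `6` form `Φ`
  obtain ⟨Φ, hΦ⟩ := isMF_phiFun G c₀
  -- the data over `ℤ_(3)`
  let pinv : Rl.Zl 3 := ⟨(p : ℂ)⁻¹, 1, (p : ℤ), hp3, by simp⟩
  have hpinv : pinv * ((p : ℕ) : Rl.Zl 3) = 1 := by
    apply Subtype.ext
    push_cast
    exact inv_mul_cancel₀ hpne
  set a : PowerSeries (Rl.Zl 3) := mapZ (Rl.Zl 3) (aInt c₀ w) with ha_def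
  set B : PowerSeries (Rl.Zl 3) := bPhi p hp0 pinv c₀ m w with hB_def
  have ha : PowerSeries.map (Rl.Zl 3).subtype a = qExpansion 1 (Φ : ℍ → ℂ) := by
    rw [hΦ, qExpansion_phiFun G c₀ w hw, ha_def, map_mapZ]
  have hBC : PowerSeries.map (Rl.Zl 3).subtype B =
      qExpansion p (qcCuspZero 6 (Φ : ℍ → ℂ)) := by
    rw [hΦ, qExpansion_cuspZero_phiFun G c₀ m hm w hw, hB_def, map_bPhi]
    rfl
  have hb : ∀ i, i < p → PowerSeries.map (Rl.Zl 3).subtype (compOf p i B) =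
      comp p i (qcCuspZero 6 (Φ : ℍ → ℂ)) := by
    intro i _
    rw [map_compOf, hBC]
    ext l
    rw [coeff_compOf, coeff_comp]
  have hN := map_qcEsymmModel_eq_qExpansion_normForm Φ (Rl.Zl 3).subtype a
    (fun i => compOf p i B) ha hb (le_refl (p + 1))
  -- integrality of the norm and reduction into `𝔽₃[E₄, E₆, Δ]`
  have hint : ∀ n, (qExpansion 1 (normForm Φ (p + 1) : ℍ → ℂ)).coeff n ∈ Rl.Zl 3 := by
    intro n
    rw [← hN, PowerSeries.coeff_map]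
    exact Subtype.property _
  obtain ⟨P, -, hP⟩ := Rl.exists_mvPolynomial_mod 3 _ (normForm Φ (p + 1) : ℍ → ℂ)
    (Fermat.Agent.S23.ModularForm.isMF (normForm Φ (p + 1))) hint
  have h1 : MvPolynomial.aeval (L1.gens (ZMod 3)) P =
      PowerSeries.map (Rl.red 3) (qcEsymmModel p a (fun i => compOf p i B) (p + 1)) := by
    ext n
    rw [← hP n, PowerSeries.coeff_map]
    congr 1
    apply Subtype.ext
    show (qExpansion 1 (normForm Φ (p + 1) : ℍ → ℂ)).coeff n = _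
    rw [← hN, PowerSeries.coeff_map]
    rfl
  -- the reductions of the two expansions
  have h3K : (3 : ZMod 3) = 0 := by decide
  have hBred : PowerSeries.map (Rl.red 3) B =
      PowerSeries.C (-((c₀ : ZMod 3) ^ 3 * (m : ZMod 3) * (Rl.red 3 pinv) ^ 3)) +
        PowerSeries.C (-(c₀ : ZMod 3) ^ 3) * PowerSeries.expand p hp0 (sBar (ZMod 3)) := by
    rw [hB_def, map_bPhi, bPhi_char_three (ZMod 3) h3K]
  have hared : PowerSeries.map (Rl.red 3) a =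
      PowerSeries.C (-(c₀ : ZMod 3) ^ 3) * sBar (ZMod 3) := by
    rw [ha_def, map_mapZ, mapZ_aInt_char_three (ZMod 3) h3K]
  have h2 := map_qcEsymmModel_of_eq_zero (p := p) (PowerSeries.map (Rl.red 3)) a
    (fun i => compOf p i B)
    (fun i hi0 hip => by
      show PowerSeries.map (Rl.red 3) (compOf p i B) = 0
      rw [map_compOf, hBred, compOf_pos p hp0 _ _ _ hi0 hip])
    (le_refl (p + 1))
  rw [map_compOf, hBred, compOf_zero, hared, esymm_cons_replicate_succ] at h2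
  -- the contradiction
  have hane : (-(c₀ : ZMod 3) ^ 3) ≠ 0 := by
    have hc : (c₀ : ZMod 3) ≠ 0 := by
      rw [Ne, ZMod.intCast_zmod_eq_zero_iff_dvd]
      exact hc₀
    exact neg_ne_zero.mpr (pow_ne_zero 3 hc)
  refine false_of_levelOne_mod_three (-(c₀ : ZMod 3) ^ 3)
    (-((c₀ : ZMod 3) ^ 3 * (m : ZMod 3) * (Rl.red 3 pinv) ^ 3)) hane p P ?_
  rw [h1, h2]
  ring

end Fermat.Agent.S16.U3b
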