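/-
T16 / U3b (helper42): ALGEBRAIC CORE of the case `l = 3`, `p ≡ 2 mod 3` of the upper bound of S16
(reports 167(4) / 175(c)).  Mathlib only.

Setting: `G ≡ 1 mod 9`, `Φ := (G³ - E₆)/9 ∈ M₆(Γ₀(p))` is 3-integral, `Φ̄ = -S̄` at `∞`
(`S̄ = Σ σ₁(n) qⁿ mod 3`), and the `p` conjugates over the cusp `0` reduce to `-S̄ - c'`.
The elementary symmetric functions of the conjugates are level-one forms, hence polynomials in
`Δ̄ = S̄ - S̄³` mod 3 (`E₄ ≡ E₆ ≡ 1`).  This is impossible:

* `not_forall_esymm_eq_comp` : polynomial form (`s = X` a variable, `Δ̄ = X - X³`); proof: `X - X³`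
  is invariant under `X ↦ X + 1`, so `(Y - s)(Y - s - c')^p` would be invariant under `s ↦ s + 1`;
  evaluate at `Y = s` and `Y = s + 1`.  (No Artin–Schreier irreducibility, no function fields.)
* `aeval_injective_of_constantCoeff_eq_zero` : a nonzero power series without constant term is
  transcendental over the coefficient field.
* `not_forall_esymm_eq_aeval` : power series form, ready for consumption:
  `S D : F⟦X⟧`, `constantCoeff S = 0`, `S ≠ 0`, `D = S - S³`  ⊢  the `esymm i` of
  `{-S, (-S - C c') × p}` are not all of the form `aeval D P`.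
* `esymm_map_ringHom` : `(M.map f).esymm n = f (M.esymm n)`.
-/
import Mathlib

set_option autoImplicit false

namespace Fermat.Agent.S16.U3b

open Polynomial

/-- Translation invariance: in characteristic `3`, `X - X^3` is fixed by `X ↦ X + 1`. -/
theorem comp_sub_cube_comp_add_one {F : Type*} [Field F] [CharP F 3] (P : F[X]) :
    (P.comp (X - X ^ 3)).comp (X + 1) = P.comp (X - X ^ 3) := by
  rw [comp_assoc]
  congr 1
  have h3 : (3 : F[X]) = 0 := by
    have : ((3 : ℕ) : F[X]) = 0 := CharP.cast_eq_zero (F[X]) 3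
    exact_mod_cast this
  simp only [sub_comp, X_comp, pow_comp]
  have : (X + 1 : F[X]) ^ 3 = X ^ 3 + 1 + 3 * (X ^ 2 + X) := by ring
  rw [this, h3, zero_mul, add_zero]
  ring

/-- Algebraic core of the case `l = 3`, `p ≡ 2 mod 3` of the upper bound of S16
(reports 167(4)/175(c)).  `s` is the variable of `F[X]` (to be specialised to the power series
`S̄ = Σ σ₁(n) qⁿ mod 3`, which is transcendental), `Δ̄ = s - s³`.
The conjugates of `Φ̄` are `-s` (once) and `-s - c'` (`p` times); their elementary symmetric
functions cannot all be polynomials in `s - s³`. -/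
theorem not_forall_esymm_eq_comp {F : Type*} [Field F] [CharP F 3] {p : ℕ} (hp : 1 ≤ p) (c' : F) :
    ¬ ∀ i ≤ p + 1, ∃ P : F[X],
      ((-X : F[X]) ::ₘ Multiset.replicate p (-X - C c')).esymm i = P.comp (X - X ^ 3) := by
  intro h
  set M : Multiset F[X] := (-X : F[X]) ::ₘ Multiset.replicate p (-X - C c') with hM
  have hcard : Multiset.card M = p + 1 := by simp [hM]
  let τ : F[X] →+* F[X] := Polynomial.compRingHom (X + 1)
  have hτ : ∀ f : F[X], τ f = f.comp (X + 1) := fun f => rfl
  -- the product polynomial in `F[X][Y]`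
  set Q : F[X][X] := (M.map fun m => X + C m).prod with hQ
  have hQ1 : Q = (X + C (-X)) * (X + C (-X - C c')) ^ p := by
    simp [hQ, hM, Multiset.map_replicate, Multiset.prod_replicate]
  have hdeg : Q.natDegree ≤ p + 1 := by
    rw [hQ1]
    refine (natDegree_mul_le).trans ?_
    have h1 : (X + C (-X) : F[X][X]).natDegree ≤ 1 := (natDegree_X_add_C _).le
    have h2 : ((X + C (-X - C c') : F[X][X]) ^ p).natDegree ≤ p := by
      refine natDegree_pow_le.trans ?_
      have := (natDegree_X_add_C (-X - C c' : F[X])).le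
      nlinarith
    omega
  -- `Q` is fixed by the translation on coefficients
  have hfix : Q.map τ = Q := by
    ext1 k
    rw [coeff_map]
    by_cases hk : k ≤ p + 1
    · rw [hQ, Multiset.prod_X_add_C_coeff M (by rw [hcard]; exact hk), hcard]
      obtain ⟨P, hP⟩ := h (p + 1 - k) (by omega)
      rw [hP, hτ, comp_sub_cube_comp_add_one]
    · rw [coeff_eq_zero_of_natDegree_lt (by omega), map_zero]
  -- the translated product
  have hQ2 : Q.map τ = (X + C (-(X + 1))) * (X + C (-(X + 1) - C c')) ^ p := by
    rw [hQ1]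
    simp [Polynomial.map_mul, Polynomial.map_pow, hτ]
  rw [hfix, hQ1] at hQ2
  -- evaluate at `Y = X`
  have e1 := congrArg (Polynomial.eval (X : F[X])) hQ2
  simp only [eval_mul, eval_add, eval_X, eval_C, eval_pow] at e1
  have e1' : (0 : F[X]) = -(C (-1 - c')) ^ p := by
    have : (X + -X : F[X]) = 0 := by ring
    rw [this, zero_mul] at e1
    rw [e1]
    have : (X + (-(X + 1) - C c') : F[X]) = C (-1 - c') := by
      simp only [map_sub, map_neg, map_one]; ring
    rw [this]
    ring
  have hc' : c' = -1 := by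
    have h0 : (C (-1 - c') : F[X]) ^ p = 0 := by
      rw [eq_comm, neg_eq_zero] at e1'
      exact e1'
    have := pow_eq_zero_iff (by omega) |>.1 h0
    rw [C_eq_zero] at this
    linear_combination -this
  -- evaluate at `Y = X + 1`
  have e2 := congrArg (Polynomial.eval (X + 1 : F[X])) hQ2
  simp only [eval_mul, eval_add, eval_X, eval_C, eval_pow] at e2
  have hz : (X + 1 + -(X + 1) : F[X]) = 0 := by ring
  rw [hz, zero_mul] at e2
  have h1 : (X + 1 + -X : F[X]) = 1 := by ring
  have h2 : (X + 1 + (-X - C c') : F[X]) = C (2 : F) := by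
    rw [hc']
    simp only [map_neg, map_one]
    have : (C (2 : F) : F[X]) = 2 := rfl
    rw [this]; ring
  rw [h1, h2, one_mul, ← C_pow, C_eq_zero] at e2
  have h2ne : (2 : F) ≠ 0 := by
    intro h
    have : (3 : ℕ) ∣ 2 := (CharP.cast_eq_zero_iff F 3 2).1 (by exact_mod_cast h)
    omega
  exact pow_ne_zero p h2ne e2

end Fermat.Agent.S16.U3b

namespace Fermat.Agent.S16.U3b

open Polynomial

/-- elementary symmetric functions commute with ring homomorphisms -/
theorem esymm_map_ringHom {R S : Type*} [CommSemiring R] [CommSemiring S] (f : R →+* S)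
    (M : Multiset R) (n : ℕ) : (M.map f).esymm n = f (M.esymm n) := by
  simp only [Multiset.esymm, Multiset.powersetCard_map, Multiset.map_map, map_multiset_sum]
  congr 1
  apply Multiset.map_congr rfl
  intro s _
  simp [map_multiset_prod]

/-- a nonzero power series without constant term is transcendental over the coefficient field -/
theorem aeval_injective_of_constantCoeff_eq_zero {F : Type*} [Field F] (S : PowerSeries F)
    (hS0 : PowerSeries.constantCoeff S = 0) (hS : S ≠ 0) :
    Function.Injective (Polynomial.aeval S : F[X] → PowerSeries F) := by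
  rw [injective_iff_map_eq_zero]
  intro f hf
  by_contra hne
  -- write `f = X ^ k * g` with `g.eval 0 ≠ 0`
  obtain ⟨k, g, hg0, rfl⟩ : ∃ k g, (g : F[X]).eval 0 ≠ 0 ∧ f = X ^ k * g := by
    refine ⟨f.rootMultiplicity 0, f /ₘ (X - C 0) ^ f.rootMultiplicity 0, ?_, ?_⟩
    · exact Polynomial.eval_divByMonic_pow_rootMultiplicity_ne_zero 0 hne
    · have := Polynomial.pow_mul_divByMonic_rootMultiplicity_eq f 0
      simpa using this.symm
  rw [map_mul, map_pow, aeval_X] at hf
  have hcc : PowerSeries.constantCoeff (aeval S g) = g.eval 0 := by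
    rw [aeval_def, Polynomial.hom_eval₂, hS0, Polynomial.eval]
    congr 1
  rcases mul_eq_zero.1 hf with h | h
  · exact hS (pow_eq_zero_iff (M₀ := PowerSeries F) (n := k) (by
      rintro rfl
      simp at h) |>.1 h)
  · apply hg0
    rw [← hcc, h, map_zero]

/-- Power series form of the core: `S` a nonzero power series without constant term over a field
of characteristic `3` (`S̄ = Σ σ₁(n) qⁿ`), `D = S - S³` (`= Δ̄`).  The elementary symmetric
functions of `-S` (once) and `-S - c'` (`p ≥ 1` times) are not all polynomials in `D`. -/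
theorem not_forall_esymm_eq_aeval {F : Type*} [Field F] [CharP F 3] {p : ℕ} (hp : 1 ≤ p) (c' : F)
    (S D : PowerSeries F) (hS0 : PowerSeries.constantCoeff S = 0) (hS : S ≠ 0)
    (hD : D = S - S ^ 3) :
    ¬ ∀ i ≤ p + 1, ∃ P : F[X],
      ((-S) ::ₘ Multiset.replicate p (-S - PowerSeries.C c')).esymm i = aeval D P := by
  intro h
  apply not_forall_esymm_eq_comp hp c'
  intro i hi
  obtain ⟨P, hP⟩ := h i hi
  refine ⟨P, ?_⟩
  apply aeval_injective_of_constantCoeff_eq_zero S hS0 hS
  let φ : F[X] →+* PowerSeries F := (Polynomial.aeval S : F[X] →ₐ[F] PowerSeries F).toRingHom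
  have hφ : ∀ f, φ f = aeval S f := fun f => rfl
  have h1 : aeval S (((-X : F[X]) ::ₘ Multiset.replicate p (-X - C c')).esymm i) =
      ((-S) ::ₘ Multiset.replicate p (-S - PowerSeries.C c')).esymm i := by
    rw [← hφ, ← esymm_map_ringHom]
    congr 1
    simp [hφ, Multiset.map_replicate]
  rw [h1, hP, aeval_comp, hD]
  simp

end Fermat.Agent.S16.U3b
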