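import Fermat.Agent.S16.Conj.NormQExp
import Fermat.Agent.S16.Conj.Expand
import Fermat.Agent.S16.TraceCases.LevelOneAS
import Fermat.Agent.S16.TraceCases.Final
import Fermat.Agent.S16.NoConst

/-!
# T16 / U3b, TEAM B (helper32): the NORM-ONLY route to `NoConstInt p 3 2` for `p ≡ 2 mod 3`

`G ∈ M₂(Γ₀(p))` with `G ≡ c₀ mod 9`, `3 ∤ c₀`.  Put `Φ = (G³ - c₀³ E₆)/9 ∈ M₆(Γ₀(p))`.  At `∞`,
`Φ ≡ a S̄ mod 3` (`a = 56 c₀³ ≠ 0`), at the cusp `0` all conjugates are `≡ κ + a S̄(q)`.  The norm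
`N = ∏ conjugates` is a level one form of weight `6(p+1)` with `3`-integral `q`-expansion
`≡ (a S̄)(a S̄ + κ)^p`, contradicting `TraceCases.false_of_levelOne_three`.
-/

set_option autoImplicit false

open UpperHalfPlane ModularForm ModularFormClass EisensteinSeries CongruenceSubgroup
open scoped MatrixGroups ModularForm Manifold

namespace Fermat.Agent.S16.U3b.Norm

open Fermat.Agent.S23 Fermat.Agent.S16.Conj Fermat.Agent.S16.TraceCases Fermat.Agent.S16.Rl
open Fermat.Agent.S20.Puiseux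

section Model

variable {R B : Type*} [CommRing R] [CommRing B]

/-- the `9`-divided model of `(x + 9H)³ - y (1 - 504 S)` when `x³ - y = 9 κ` -/
def modelT (x H y κ S : R) : R :=
  κ + 3 * (x ^ 2 * H + 9 * x * H ^ 2 + 27 * H ^ 3) + 56 * y * S

theorem nine_mul_modelT (x H y κ S : R) (hκ : 9 * κ = x ^ 3 - y) :
    9 * modelT x H y κ S = (x + 9 * H) ^ 3 - y * (1 - 504 * S) := by
  unfold modelT
  linear_combination hκ

theorem map_modelT (φ : R →+* B) (h3 : (3 : B) = 0) (x H y κ S : R) :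
    φ (modelT x H y κ S) = φ κ + 56 * φ y * φ S := by
  simp [modelT, map_add, map_mul, map_ofNat, h3]

end Model

theorem nine_dvd_cube_add_one (p : ℕ) (h : p % 3 = 2) : 9 ∣ p ^ 3 + 1 := by
  have h9 : p % 9 = 2 ∨ p % 9 = 5 ∨ p % 9 = 8 := by omega
  apply Nat.dvd_of_mod_eq_zero
  rcases h9 with h9 | h9 | h9 <;> simp [Nat.add_mod, Nat.pow_mod, h9]

/-- the weight 6 function `Φ = (G³ - c³ E₆) / 9` -/
noncomputable def phiFun (G : ℍ → ℂ) (c : ℂ) : ℍ → ℂ :=
  (9⁻¹ : ℂ) • (G ^ 3 - (c ^ 3) • (E₆ : ℍ → ℂ))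

theorem isMF_phiFun {p : ℕ} {G : ℍ → ℂ} (hG : IsMF (G0 p) 2 G) (c : ℂ) :
    IsMF (G0 p) 6 (phiFun G c) :=
  ((hG.pow_cast 3 (by norm_num)).sub
    ((IsMF.levelOne_to_G0 (ModularForm.isMF E₆)).smul (c ^ 3))).smul _

/-- `q`-expansions (any period) of `c • (u³ - d • v)` -/
theorem qExpansion_cube_sub {e : ℕ} (he : 0 < e) {u v : ℍ → ℂ} (hu : IsPuiseux e u)
    (hv : IsPuiseux e v) (c d : ℂ) :
    qExpansion (e : ℝ) (c • (u ^ 3 - d • v)) =
      c • ((qExpansion (e : ℝ) u) ^ 3 - d • qExpansion (e : ℝ) v) := by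
  have hu2 : IsPuiseux e (u * u) := hu.mul hu
  have hu3 : IsPuiseux e (u ^ 3) := hu.pow 3
  have e3 : u ^ 3 = u * u * u := by ring
  rw [qExpansion_smul ((hu3.sub (hv.smul d)).analyticAt he),
    qExpansion_sub (hu3.analyticAt he) ((hv.smul d).analyticAt he),
    qExpansion_smul (hv.analyticAt he), e3, qExpansion_mul (hu2.analyticAt he) (hu.analyticAt he),
    qExpansion_mul (hu.analyticAt he) (hu.analyticAt he)]
  ring_nf

theorem E6_slash_S : (E₆ : ℍ → ℂ) ∣[(6 : ℤ)] ModularGroup.S = (E₆ : ℍ → ℂ) :=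
  (ModularForm.isMF E₆).slash_eq ⟨ModularGroup.S, rfl⟩

theorem cube_slash_S (G : ℍ → ℂ) :
    (G ^ 3) ∣[(6 : ℤ)] ModularGroup.S = (G ∣[(2 : ℤ)] ModularGroup.S) ^ 3 := by
  have h1 := mul_slash_SL2 2 2 ModularGroup.S G G
  have h2 := mul_slash_SL2 (2 + 2) 2 ModularGroup.S (G * G) G
  rw [h1] at h2
  have e3 : G ^ 3 = G * G * G := by ring
  have e3' : (G ∣[(2 : ℤ)] ModularGroup.S) ^ 3 =
    (G ∣[(2 : ℤ)] ModularGroup.S) * (G ∣[(2 : ℤ)] ModularGroup.S) * (G ∣[(2 : ℤ)] ModularGroup.S) := by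
    ring
  rw [e3, e3', ← h2]
  norm_num

theorem qcCuspZero_phiFun (G : ℍ → ℂ) (c : ℂ) :
    qcCuspZero 6 (phiFun G c) = (9⁻¹ : ℂ) • ((qcCuspZero 2 G) ^ 3 - (c ^ 3) • (E₆ : ℍ → ℂ)) := by
  unfold qcCuspZero phiFun
  rw [SL_smul_slash, sub_eq_add_neg, SlashAction.add_slash, SlashAction.neg_slash, SL_smul_slash,
    cube_slash_S, E6_slash_S, ← sub_eq_add_neg]


theorem eq_inv_smul_of_nine_mul {X Y : PowerSeries ℂ} (h : 9 * X = Y) : X = (9⁻¹ : ℂ) • Y := by
  rw [← h]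
  ext n
  have e9 : (9 : PowerSeries ℂ) = PowerSeries.C (9 : ℂ) := by rw [map_ofNat]
  rw [PowerSeries.coeff_smul, e9, PowerSeries.coeff_C_mul, smul_eq_mul]
  field_simp

theorem map_map_intCast {A B : Type*} [CommRing A] [CommRing B] (ψ : A →+* B)
    (P : PowerSeries ℤ) :
    PowerSeries.map ψ (PowerSeries.map (Int.castRingHom A) P) =
      PowerSeries.map (Int.castRingHom B) P := by
  ext n
  simp [PowerSeries.coeff_map]

/-- `σ₅ ≡ σ₁ mod 3` -/
theorem map_sigSeries_five :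
    (sigSeries 5).map (Int.castRingHom (ZMod 3)) = SbarThree := by
  ext n
  rw [SbarThree, PowerSeries.coeff_map, PowerSeries.coeff_map, coeff_sigSeries, coeff_sigSeries]
  simp only [eq_intCast, Int.cast_natCast]
  rw [ArithmeticFunction.sigma_apply, ArithmeticFunction.sigma_apply, Nat.cast_sum, Nat.cast_sum]
  refine Finset.sum_congr rfl fun d _ => ?_
  have h : ∀ x : ZMod 3, x ^ 5 = x ^ 1 := by decide
  rw [Nat.cast_pow, Nat.cast_pow]
  exact h _

section Main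

variable {p : ℕ} [hp : Fact p.Prime]

omit hp in
theorem not_three_dvd_prime (h3 : p % 3 = 2) : ¬ (3 : ℤ) ∣ (p : ℤ) := by
  intro h
  have : (3 : ℕ) ∣ p := by exact_mod_cast h
  omega

omit hp in
theorem pinv_mem (h3 : p % 3 = 2) : ((p : ℂ))⁻¹ ∈ Zl 3 :=
  ⟨1, (p : ℤ), not_three_dvd_prime h3, by simp⟩

theorem false_of_form (h3 : p % 3 = 2) (G : ModularForm (Gamma0 p) 2) (c₀ : ℤ)
    (hc₀ : ¬ (3 : ℤ) ∣ c₀) (g : PowerSeries ℤ)
    (hg : qExpansion 1 G = g.map (Int.castRingHom ℂ)) (hg0 : PowerSeries.coeff 0 g = c₀)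
    (hgn : ∀ n : ℕ, 1 ≤ n → (9 : ℤ) ∣ PowerSeries.coeff n g) : False := by
  classical
  have : NeZero p := ⟨hp.out.ne_zero⟩
  have hp0 : 0 < p := hp.out.pos
  have hpC : (p : ℂ) ≠ 0 := by exact_mod_cast hp.out.ne_zero
  -- decomposition `g = c₀ + 9 g'`
  set g' : PowerSeries ℤ :=
    PowerSeries.mk fun n => if n = 0 then 0 else PowerSeries.coeff n g / 9 with hg'
  have hgdec : g = PowerSeries.C c₀ + 9 * g' := by
    ext n
    have e9 : (9 : PowerSeries ℤ) = PowerSeries.C (9 : ℤ) := by rw [map_ofNat]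
    rw [map_add, PowerSeries.coeff_C, e9, PowerSeries.coeff_C_mul, hg', PowerSeries.coeff_mk]
    split_ifs with hn
    · subst hn; rw [hg0]; ring
    · rw [Int.mul_ediv_cancel' (hgn n (by omega))]; ring
  -- the coefficient ring `A = ℤ_(3)`
  let ι : ↥(Zl 3) →+* ℂ := (Zl 3).subtype
  let ρ : ↥(Zl 3) →+* ZMod 3 := red 3
  set gA' : PowerSeries ↥(Zl 3) := g'.map (Int.castRingHom ↥(Zl 3)) with hgA'
  set S5A : PowerSeries ↥(Zl 3) := (sigSeries 5).map (Int.castRingHom ↥(Zl 3)) with hS5A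
  set cA : ↥(Zl 3) := (c₀ : ↥(Zl 3)) with hcA
  set pinv : ↥(Zl 3) := ⟨(p : ℂ)⁻¹, pinv_mem h3⟩ with hpinv
  have hpp : (p : ↥(Zl 3)) * pinv = 1 := by
    apply Subtype.ext
    simp [hpinv, hpC]
  obtain ⟨m, hm⟩ := nine_dvd_cube_add_one p h3
  set κ₀ : ↥(Zl 3) := -(cA ^ 3 * (m : ↥(Zl 3)) * pinv ^ 3) with hκdef
  have hκ₀ : 9 * κ₀ = (-(cA * pinv)) ^ 3 - cA ^ 3 := by
    have h1 : ((p : ↥(Zl 3))) ^ 3 + 1 = 9 * (m : ↥(Zl 3)) := by
      exact_mod_cast congrArg (Nat.cast : ℕ → ↥(Zl 3)) hm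
    have h2 : (p : ↥(Zl 3)) ^ 3 * pinv ^ 3 = 1 := by rw [← mul_pow, hpp, one_pow]
    rw [hκdef]
    linear_combination (cA ^ 3 * pinv ^ 3) * h1 + (-cA ^ 3) * h2
  -- images in `ℂ`
  have hιg : PowerSeries.map ι (PowerSeries.C cA + 9 * gA') = qExpansion 1 G := by
    rw [hg, hgdec, hgA']
    simp only [map_add, map_mul, map_ofNat, PowerSeries.map_C, map_map_intCast]
    simp [hcA, ι]
  have hιE : PowerSeries.map ι (1 - 504 * S5A) = qExpansion 1 (E₆ : ℍ → ℂ) := by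
    rw [Fermat.Agent.S16.L1.qExpansion_E6, ← e6_eq_E6Z, e6, hS5A]
    simp only [map_sub, map_one, map_mul, map_ofNat, map_map_intCast]
  have hιc : PowerSeries.map ι (PowerSeries.C cA) = PowerSeries.C ((c₀ : ℂ)) := by
    rw [PowerSeries.map_C]
    simp [hcA, ι]
  -- the forms
  have hGmf : IsMF (G0 p) 2 G := ModularForm.isMF G
  have hG1 : IsPuiseux 1 (G : ℍ → ℂ) := qc_isPuiseux_of_isMF hGmf
  have hE1 : IsPuiseux 1 (E₆ : ℍ → ℂ) :=
    qc_isPuiseux_of_isMF (p := p) (IsMF.levelOne_to_G0 (ModularForm.isMF E₆))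
  set Φ : ℍ → ℂ := phiFun G (c₀ : ℂ) with hΦ
  -- the model at `∞`
  set aA : PowerSeries ↥(Zl 3) :=
    modelT (PowerSeries.C cA) gA' ((PowerSeries.C cA) ^ 3) 0 S5A with haA
  have h9a : 9 * aA = (PowerSeries.C cA + 9 * gA') ^ 3 -
      (PowerSeries.C cA) ^ 3 * (1 - 504 * S5A) :=
    nine_mul_modelT _ _ _ _ _ (by ring)
  have hqΦ : qExpansion 1 Φ = (9⁻¹ : ℂ) • ((qExpansion 1 G) ^ 3 -
      ((c₀ : ℂ) ^ 3) • qExpansion 1 (E₆ : ℍ → ℂ)) := by
    have := qExpansion_cube_sub one_pos hG1 hE1 (9⁻¹) ((c₀ : ℂ) ^ 3)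
    rw [Nat.cast_one] at this
    exact this
  have ha : PowerSeries.map ι aA = qExpansion 1 Φ := by
    have h := congrArg (PowerSeries.map ι) h9a
    rw [map_mul, map_sub, map_pow, map_mul, map_pow, hιg, hιE, hιc, map_ofNat] at h
    rw [hqΦ, eq_inv_smul_of_nine_mul h, ← map_pow, ← PowerSeries.smul_eq_C_mul]
  -- the model at the cusp `0`
  set xA : PowerSeries ↥(Zl 3) := PowerSeries.C (-(cA * pinv)) with hxA
  set HA : PowerSeries ↥(Zl 3) := PowerSeries.C (-pinv) * Uop p gA' with hHA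
  set SpA : PowerSeries ↥(Zl 3) := PowerSeries.expand p hp.out.ne_zero S5A with hSpA
  set TA : PowerSeries ↥(Zl 3) :=
    modelT xA HA ((PowerSeries.C cA) ^ 3) (PowerSeries.C κ₀) SpA with hTA
  have h9T : 9 * TA = (xA + 9 * HA) ^ 3 - (PowerSeries.C cA) ^ 3 * (1 - 504 * SpA) := by
    refine nine_mul_modelT _ _ _ _ _ ?_
    have := congrArg (PowerSeries.C (R := ↥(Zl 3))) hκ₀
    rw [map_mul, map_sub, map_pow, map_pow, map_ofNat] at this
    exact this
  have hιgS : PowerSeries.map ι (xA + 9 * HA) = qExpansion (p : ℝ) (qcCuspZero 2 G) := by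
    ext n
    have hS : qcCuspZero 2 (G : ℍ → ℂ) = (G : ℍ → ℂ) ∣[(2 : ℤ)] ModularGroup.S := rfl
    rw [hS, Expand.IsG0.coeff_qExpansion_slash_S (Expand.IsG0.of_modularForm G) n, hg, hgdec]
    have e9 : (9 : PowerSeries ↥(Zl 3)) = PowerSeries.C (9 : ↥(Zl 3)) := by rw [map_ofNat]
    have e9' : (9 : PowerSeries ℤ) = PowerSeries.C (9 : ℤ) := by rw [map_ofNat]
    rw [hxA, hHA, e9, e9', hgA']
    simp only [map_add, PowerSeries.coeff_C_mul, PowerSeries.coeff_C, coeff_Uop,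
      PowerSeries.coeff_map]
    have h9A : (((9 : ↥(Zl 3)) : ℂ)) = 9 := rfl
    have hpn : p * n = 0 ↔ n = 0 := by
      constructor
      · intro h
        rcases Nat.mul_eq_zero.mp h with h | h
        · exact absurd h hp.out.ne_zero
        · exact h
      · rintro rfl; simp
    by_cases hn : n = 0
    · subst hn
      simp [ι, hcA, hpinv]
      field_simp
      rw [h9A]
      ring
    · rw [if_neg hn, if_neg (fun h => hn (hpn.mp h))]
      simp [ι, hpinv]
      field_simp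
      rw [h9A]
      ring
  have hE6p : qExpansion (p : ℝ) (E₆ : ℍ → ℂ) =
      PowerSeries.expand p hp.out.ne_zero (qExpansion 1 (E₆ : ℍ → ℂ)) := by
    have hE6G0 : Expand.IsG0 p 6 (E₆ : ℍ → ℂ) :=
      Expand.IsG0.of_isMF (IsMF.levelOne_to_G0 (ModularForm.isMF E₆))
    exact (Expand.IsG0.hasQExp_inf hE6G0).qExpansion_eq (Expand.natCast_pos' p)
  have hιEp : PowerSeries.map ι (1 - 504 * SpA) = qExpansion (p : ℝ) (E₆ : ℍ → ℂ) := by
    rw [hE6p, ← hιE, ← PowerSeries.map_expand, hSpA]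
    congr 1
    simp only [map_sub, map_one, map_mul, map_ofNat]
  have hqΦS : qExpansion (p : ℝ) (qcCuspZero 6 Φ) =
      (9⁻¹ : ℂ) • ((qExpansion (p : ℝ) (qcCuspZero 2 G)) ^ 3 -
        ((c₀ : ℂ) ^ 3) • qExpansion (p : ℝ) (E₆ : ℍ → ℂ)) := by
    rw [hΦ, qcCuspZero_phiFun]
    exact qExpansion_cube_sub hp0 (isPuiseux_qcCuspZero hGmf) (hE1.of_one p) _ _
  have hT : PowerSeries.map ι TA = qExpansion (p : ℝ) (qcCuspZero 6 Φ) := by
    have h := congrArg (PowerSeries.map ι) h9T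
    rw [map_mul, map_sub, map_pow, map_mul, map_pow, hιgS, hιEp, hιc, map_ofNat] at h
    rw [hqΦS, eq_inv_smul_of_nine_mul h, ← map_pow, ← PowerSeries.smul_eq_C_mul]
  set b : ℕ → PowerSeries ↥(Zl 3) :=
    fun i => PowerSeries.mk fun l => PowerSeries.coeff (i + l * p) TA with hbdef
  have hb : ∀ i, i < p → PowerSeries.map ι (b i) = comp p i (qcCuspZero 6 Φ) := by
    intro i _
    ext l
    rw [PowerSeries.coeff_map, hbdef, PowerSeries.coeff_mk, coeff_comp, ← hT,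
      PowerSeries.coeff_map]
  -- reductions mod `3`
  let φ : PowerSeries ↥(Zl 3) →+* PowerSeries (ZMod 3) := PowerSeries.map ρ
  have h3B : (3 : PowerSeries (ZMod 3)) = 0 := by
    have : ((3 : ℕ) : ZMod 3) = 0 := by decide
    have h := congrArg (PowerSeries.C (R := ZMod 3)) this
    rw [map_natCast, map_zero] at h
    exact_mod_cast h
  have hρc : ρ cA = (c₀ : ZMod 3) := by
    rw [hcA]
    exact map_intCast ρ c₀
  set a : ZMod 3 := 56 * (c₀ : ZMod 3) ^ 3 with hadef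
  have ha0 : a ≠ 0 := by
    have h56 : (56 : ZMod 3) ≠ 0 := by decide
    exact mul_ne_zero h56 (pow_ne_zero _ (zmod_ne_zero (l := 3) (by exact_mod_cast hc₀)))
  have hφS5 : φ S5A = SbarThree := by
    rw [hS5A]
    exact (map_map_intCast ρ _).trans map_sigSeries_five
  have hφC : (56 : PowerSeries (ZMod 3)) * φ ((PowerSeries.C cA) ^ 3) = PowerSeries.C a := by
    rw [map_pow]
    show 56 * (PowerSeries.map ρ (PowerSeries.C cA)) ^ 3 = _
    rw [PowerSeries.map_C, hρc, hadef, map_mul, map_pow, map_ofNat]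
  have hφa : φ aA = PowerSeries.C a * SbarThree := by
    rw [haA, map_modelT φ h3B, map_zero, zero_add, hφC, hφS5]
  have hφT : φ TA = PowerSeries.C (ρ κ₀) +
      PowerSeries.C a * PowerSeries.expand p hp.out.ne_zero SbarThree := by
    rw [hTA, map_modelT φ h3B, hφC, hSpA]
    show PowerSeries.map ρ (PowerSeries.C κ₀) + _ * PowerSeries.map ρ _ = _
    rw [PowerSeries.map_C, PowerSeries.map_expand,
      show PowerSeries.map ρ S5A = SbarThree from hφS5]
  have hcoeffb : ∀ i l : ℕ, PowerSeries.coeff l (φ (b i)) =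
      PowerSeries.coeff (i + l * p) (φ TA) := by
    intro i l
    show PowerSeries.coeff l (PowerSeries.map ρ (b i)) =
      PowerSeries.coeff (i + l * p) (PowerSeries.map ρ TA)
    rw [PowerSeries.coeff_map, PowerSeries.coeff_map, hbdef, PowerSeries.coeff_mk]
  have hφb0 : φ (b 0) = PowerSeries.C a * SbarThree + PowerSeries.C (ρ κ₀) := by
    ext l
    rw [hcoeffb, hφT, zero_add, map_add, map_add, PowerSeries.coeff_C_mul,
      PowerSeries.coeff_C_mul, PowerSeries.coeff_expand, if_pos (Dvd.intro_left l rfl),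
      Nat.mul_div_cancel _ hp0, PowerSeries.coeff_C, PowerSeries.coeff_C, add_comm]
    congr 1
    have : l * p = 0 ↔ l = 0 := by
      constructor
      · intro h
        rcases Nat.mul_eq_zero.mp h with h | h
        · exact h
        · exact absurd h hp.out.ne_zero
      · rintro rfl; simp
    simp only [this]
  have hφb : ∀ i, 0 < i → i < p → φ (b i) = 0 := by
    intro i hi0 hip
    ext l
    have hnd : ¬ p ∣ i + l * p := by
      intro h
      have : p ∣ i := (Nat.dvd_add_left (Dvd.intro_left l rfl)).mp h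
      exact absurd (Nat.le_of_dvd hi0 this) (by omega)
    rw [hcoeffb, hφT, map_add, PowerSeries.coeff_C_mul, PowerSeries.coeff_expand, if_neg hnd,
      PowerSeries.coeff_C, if_neg (by omega), mul_zero, add_zero, map_zero]
  -- the norm form
  obtain ⟨F, hF⟩ := isMF_phiFun hGmf (c₀ : ℂ)
  have hmodel := map_qcEsymmModel_eq_qExpansion_normForm F ι aA b
    (by rw [hF]; exact ha) (fun i hi => by rw [hF]; exact hb i hi) (le_refl (p + 1))
  have hcong := map_qcEsymmModel_of_eq_zero φ aA b hφb (le_refl (p + 1))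
  rw [hφa, hφb0] at hcong
  have hprod : ((PowerSeries.C a * SbarThree) ::ₘ Multiset.replicate p
      (PowerSeries.C a * SbarThree + PowerSeries.C (ρ κ₀))).esymm (p + 1) =
      (PowerSeries.C a * SbarThree) *
        (PowerSeries.C a * SbarThree + PowerSeries.C (ρ κ₀)) ^ p := by
    set s : Multiset (PowerSeries (ZMod 3)) := (PowerSeries.C a * SbarThree) ::ₘ
      Multiset.replicate p (PowerSeries.C a * SbarThree + PowerSeries.C (ρ κ₀)) with hs
    have hcard : Multiset.card s = p + 1 := by simp [hs]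
    rw [Multiset.esymm, ← hcard, Multiset.powersetCard_self]
    simp [hs, Multiset.prod_replicate]
  rw [hprod] at hcong
  set N := normForm F (p + 1) with hN
  have hcoeff : ∀ n, (qExpansion 1 N).coeff n =
      ((PowerSeries.coeff n (qcEsymmModel p aA b (p + 1)) : ↥(Zl 3)) : ℂ) := by
    intro n
    rw [← hmodel, PowerSeries.coeff_map]
    rfl
  have hint : ∀ n, (qExpansion 1 N).coeff n ∈ Zl 3 := fun n => by
    rw [hcoeff n]; exact Subtype.property _
  refine false_of_levelOne_three _ N (ModularForm.isMF N) hint a (ρ κ₀) ha0 p (fun n => ?_)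
  have hsub : (⟨(qExpansion 1 N).coeff n, hint n⟩ : ↥(Zl 3)) =
      PowerSeries.coeff n (qcEsymmModel p aA b (p + 1)) := Subtype.ext (hcoeff n)
  rw [hsub, ← hcong]
  show ρ _ = PowerSeries.coeff n (PowerSeries.map ρ _)
  rw [PowerSeries.coeff_map]

/-- **U3b** (`ℓ = 3`, `p ≡ 2 mod 3`), norm-only route. -/
theorem noConstInt_three_two_norm (h3 : p % 3 = 2) : NoConstInt p 3 2 := by
  rintro ⟨G, ⟨c₀, hc₀, h0⟩, hk⟩
  obtain ⟨g, hg, hg0, hgn⟩ := exists_series 3 2 G c₀ h0 hk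
  refine false_of_form h3 G c₀ (by exact_mod_cast hc₀) g hg hg0 (fun n hn => ?_)
  have := hgn n hn
  norm_num at this
  exact this

end Main

end Fermat.Agent.S16.U3b.Norm
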